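import Fermat.Agent.S41.H70.FrobAll
import Fermat.Prelude.Def_EllipticCurve_FrobeniusTrace

/-!
# S41 / U7-FD (helper70): Frobenius density for Frobenius elements at valuation subrings

Transport of `exists_prime_forall_frobenius` to the Prelude notion
`ValuationSubring.IsFrobeniusAt` over a field `Ω ⊇ L` (e.g. an algebraic closure of `ℚ`),
for subgroups of `Gal(Ω/ℚ)` containing the kernel of the restriction to `L`.
-/

set_option autoImplicit false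
set_option linter.style.haveILetI false

open NumberField Ideal IsDedekindDomain

namespace Fermat.Agent.S41.H70

section Abstract

variable {Ω : Type*} [Field Ω] [Algebra ℚ Ω]

omit [Algebra ℚ Ω] in
/-- Algebraic integers lie in every valuation subring. -/
theorem mem_valuationSubring_of_isIntegral (A : ValuationSubring Ω) {x : Ω}
    (hx : IsIntegral ℤ x) : x ∈ A := by
  have h1 : IsIntegral A x := hx.tower_top
  obtain ⟨y, hy⟩ := IsIntegrallyClosed.isIntegral_iff.mp h1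
  rw [← hy]
  exact y.2

/-- A Frobenius element at `A` raises elements of `A` to the `l`-th power modulo the maximal
ideal. -/
theorem isFrobeniusAt_sub_pow_mem {A : ValuationSubring Ω} {σ : Ω ≃ₐ[ℚ] Ω} {l : ℕ}
    (hσ : A.IsFrobeniusAt σ l) {a : Ω} (ha : a ∈ A) : σ a - a ^ l ∈ A.nonunits := by
  obtain ⟨hdec, h⟩ := hσ
  have h1 := h (IsLocalRing.residue A ⟨a, ha⟩)
  rw [← IsLocalRing.ResidueField.residue_smul, ← map_pow, ← sub_eq_zero, ← map_sub,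
    IsLocalRing.residue_eq_zero_iff, ← ValuationSubring.coe_mem_nonunits_iff] at h1
  exact h1

variable {L : Type*} [Field L] [NumberField L]

omit [Algebra ℚ Ω] in
/-- The ring homomorphism `𝓞 L → A` induced by an embedding `L → Ω`. -/
def toValuationSubring (j : L →+* Ω) (A : ValuationSubring Ω) : 𝓞 L →+* A where
  toFun x := ⟨j (x : L), mem_valuationSubring_of_isIntegral A (map_isIntegral_int j x.2)⟩
  map_one' := Subtype.ext (by simp)
  map_mul' x y := Subtype.ext (by simp)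
  map_zero' := Subtype.ext (by simp)
  map_add' x y := Subtype.ext (by simp)

omit [Algebra ℚ Ω] in
theorem coe_toValuationSubring (j : L →+* Ω) (A : ValuationSubring Ω) (x : 𝓞 L) :
    ((toValuationSubring j A x : A) : Ω) = j (x : L) := rfl

variable [IsGalois ℚ L]

/-- **Frobenius density for Frobenius elements at valuation subrings of `Ω`** (abstract form:
`L` a Galois number field embedded in `Ω` by `j`, `r` the restriction homomorphism). -/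
theorem exists_prime_forall_isFrobeniusAt_aux (j : L →+* Ω)
    (r : (Ω ≃ₐ[ℚ] Ω) →* (L ≃ₐ[ℚ] L)) (hr : ∀ σ x, j (r σ x) = σ (j x))
    (hrsurj : Function.Surjective r)
    (𝓗 : Subgroup (Ω ≃ₐ[ℚ] Ω)) (hker𝓗 : r.ker ≤ 𝓗) {ι : Type*} [Fintype ι]
    (𝓗' : ι → Subgroup (Ω ≃ₐ[ℚ] Ω)) (hker : ∀ i, r.ker ≤ 𝓗' i) (hle : ∀ i, 𝓗' i ≤ 𝓗)
    (hnormal : ∀ i, ∀ τ ∈ 𝓗, ∀ σ ∈ 𝓗' i, τ * σ * τ⁻¹ ∈ 𝓗' i)
    (hsum : ∑ i, (1 : ℝ) / ((𝓗' i).relIndex 𝓗 : ℝ) < 1) (B : ℕ) :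
    ∃ l : ℕ, l.Prime ∧ B < l ∧ ∀ A : ValuationSubring Ω, A.LiesOverPrime l →
      ∀ σ : Ω ≃ₐ[ℚ] Ω, A.IsFrobeniusAt σ l →
        ∃ τ : Ω ≃ₐ[ℚ] Ω, τ * σ * τ⁻¹ ∈ 𝓗 ∧ ∀ i, τ * σ * τ⁻¹ ∉ 𝓗' i := by
  have hle' : ∀ i, (𝓗' i).map r ≤ 𝓗.map r := fun i => Subgroup.map_mono (hle i)
  have hnormal' : ∀ i, ∀ τ ∈ 𝓗.map r, ∀ σ ∈ (𝓗' i).map r, τ * σ * τ⁻¹ ∈ (𝓗' i).map r := by
    rintro i _ ⟨τ, hτ, rfl⟩ _ ⟨σ, hσ, rfl⟩
    exact ⟨τ * σ * τ⁻¹, hnormal i τ hτ σ hσ, by simp⟩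
  have hidx : ∀ i, ((𝓗' i).map r).relIndex (𝓗.map r) = (𝓗' i).relIndex 𝓗 := by
    intro i
    rw [← Subgroup.relIndex_comap, Subgroup.comap_map_eq_self (hker i)]
  have hsum' : ∑ i, (1 : ℝ) / ((((𝓗' i).map r).relIndex (𝓗.map r) : ℕ) : ℝ) < 1 := by
    simp only [hidx]
    exact hsum
  obtain ⟨l, hl, hBl, hall⟩ :=
    exists_prime_forall_frobenius (𝓗.map r) (fun i => (𝓗' i).map r) hle' hnormal' hsum' B
  refine ⟨l, hl, hBl, fun A hA σ hσ => ?_⟩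
  -- the prime of `𝓞 L` below `A`
  set P : Ideal (𝓞 L) := (IsLocalRing.maximalIdeal A).comap (toValuationSubring j A) with hP
  have hPprime : P.IsPrime := Ideal.comap_isPrime _ _
  have hmemP : ∀ x : 𝓞 L, x ∈ P ↔ j (x : L) ∈ A.nonunits := by
    intro x
    rw [hP, Ideal.mem_comap, ← ValuationSubring.coe_mem_nonunits_iff, coe_toValuationSubring]
  have hlP : (l : 𝓞 L) ∈ P := by
    rw [hmemP]
    have : j (((l : 𝓞 L) : 𝓞 L) : L) = (l : Ω) := by simp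
    rw [this]
    exact hA
  have hfrob : ∀ x : 𝓞 L, r σ • x - x ^ l ∈ P := by
    intro x
    rw [hmemP]
    have h1 : j (((r σ • x - x ^ l : 𝓞 L) : 𝓞 L) : L) = σ (j (x : L)) - j (x : L) ^ l := by
      have h2 : ((r σ • x - x ^ l : 𝓞 L) : L) = r σ (x : L) - (x : L) ^ l := rfl
      rw [h2, map_sub, map_pow, hr]
    rw [h1]
    exact isFrobeniusAt_sub_pow_mem hσ
      (mem_valuationSubring_of_isIntegral A (map_isIntegral_int j x.2))
  obtain ⟨τ₀, hτ₀, hτ₀'⟩ := hall P hPprime hlP (r σ) hfrob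
  obtain ⟨τ, rfl⟩ := hrsurj τ₀
  have hrτ : r τ * r σ * (r τ)⁻¹ = r (τ * σ * τ⁻¹) := by simp
  rw [hrτ] at hτ₀
  refine ⟨τ, ?_, fun i hi => ?_⟩
  · have h1 : τ * σ * τ⁻¹ ∈ (𝓗.map r).comap r := hτ₀
    rwa [Subgroup.comap_map_eq_self hker𝓗] at h1
  · refine hτ₀' i ?_
    rw [hrτ]
    exact ⟨τ * σ * τ⁻¹, hi, rfl⟩

end Abstract

end Fermat.Agent.S41.H70
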