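import Mathlib

/-!
# S41 / U7-FD (helper70): algebraic lemmas on primes of the ring of integers of a Galois
number field

* `exists_frob`: a Frobenius element at a given prime of `𝓞 L` (`L / ℚ` Galois);
* `exists_rigid_bound`: for a subgroup `U` of the Galois group there is a bound `d` such that,
  at every prime `P` of `𝓞 L` above a rational prime `l > d`, an automorphism acting trivially
  modulo `P` on the integers of the fixed field of `U` lies in `U`;
* `absNorm_eq_of_pow_sub_mem`, `exists_int_sub_mem`, `pow_sub_mem_of_absNorm`: residue fields of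
  prime order.
-/

set_option autoImplicit false
set_option linter.style.haveILetI false

open NumberField Ideal IsDedekindDomain

namespace Fermat.Agent.S41.H70

section General

variable {F : Type*} [Field F] [NumberField F]

/-- A nonzero algebraic integer of norm `< l` lies in no prime above `l`. -/
theorem not_mem_of_absNorm_lt (P : Ideal (𝓞 F)) [hP : P.IsPrime] (l : ℕ) (hl : l.Prime)
    (hlP : (l : 𝓞 F) ∈ P) (x : 𝓞 F) (hx0 : x ≠ 0) (hN : absNorm (span {x}) < l) : x ∉ P := by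
  intro hx
  set N := absNorm (span {x}) with hNdef
  have hN0 : N ≠ 0 := by
    rw [hNdef, Ne, absNorm_eq_zero_iff, span_singleton_eq_bot]
    exact hx0
  have hNP : (N : 𝓞 F) ∈ P := by
    have h1 : (N : 𝓞 F) ∈ span {x} := absNorm_mem _
    exact (span_le.mpr (Set.singleton_subset_iff.mpr hx)) h1
  have hcop : Nat.Coprime l N := by
    rw [Nat.Prime.coprime_iff_not_dvd hl]
    intro hdvd
    exact absurd (Nat.le_of_dvd (Nat.pos_of_ne_zero hN0) hdvd) (not_le.mpr hN)
  have h1 : ((Nat.gcd l N : ℤ) : 𝓞 F) ∈ P := by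
    rw [Nat.gcd_eq_gcd_ab]
    push_cast
    exact P.add_mem (P.mul_mem_right _ hlP) (P.mul_mem_right _ hNP)
  rw [hcop] at h1
  exact hP.ne_top ((eq_top_iff_one P).mpr (by simpa using h1))

/-- A prime all of whose residues are roots of `X ^ l - X` has norm `l`. -/
theorem absNorm_eq_of_pow_sub_mem (Q : Ideal (𝓞 F)) [hQ : Q.IsPrime] (l : ℕ) (hl : l.Prime)
    (hlQ : (l : 𝓞 F) ∈ Q) (h : ∀ x : 𝓞 F, x ^ l - x ∈ Q) : absNorm Q = l := by
  classical
  have hQ0 : Q ≠ ⊥ := by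
    rintro rfl
    have : (l : 𝓞 F) = 0 := by simpa using hlQ
    exact hl.ne_zero (by exact_mod_cast this)
  haveI : Finite (𝓞 F ⧸ Q) := Q.finiteQuotientOfFreeOfNeBot hQ0
  haveI : Fintype (𝓞 F ⧸ Q) := Fintype.ofFinite _
  haveI : IsDomain (𝓞 F ⧸ Q) := Ideal.Quotient.isDomain Q
  have hcard : absNorm Q = Fintype.card (𝓞 F ⧸ Q) := by
    rw [absNorm_apply, Submodule.cardQuot_apply, Nat.card_eq_fintype_card]
  have hle : Fintype.card (𝓞 F ⧸ Q) ≤ l := by
    let K' := FractionRing (𝓞 F ⧸ Q)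
    have hp0 : (Polynomial.X ^ l - Polynomial.X : Polynomial (𝓞 F ⧸ Q)) ≠ 0 := by
      intro h0
      have h1 := congrArg (Polynomial.map (algebraMap (𝓞 F ⧸ Q) K')) h0
      simp only [Polynomial.map_sub, Polynomial.map_pow, Polynomial.map_X, Polynomial.map_zero] at h1
      exact FiniteField.X_pow_card_sub_X_ne_zero K' hl.one_lt h1
    have hdeg : (Polynomial.X ^ l - Polynomial.X : Polynomial (𝓞 F ⧸ Q)).natDegree ≤ l := by
      refine (Polynomial.natDegree_sub_le _ _).trans ?_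
      simp only [Polynomial.natDegree_X_pow, Polynomial.natDegree_X]
      exact max_le le_rfl hl.one_lt.le
    have hroots : (Finset.univ : Finset (𝓞 F ⧸ Q)).val ⊆
        (Polynomial.X ^ l - Polynomial.X : Polynomial (𝓞 F ⧸ Q)).roots := by
      intro r _
      rw [Polynomial.mem_roots hp0, Polynomial.IsRoot.def]
      obtain ⟨x, rfl⟩ := Ideal.Quotient.mk_surjective r
      simp only [Polynomial.eval_sub, Polynomial.eval_pow, Polynomial.eval_X]
      rw [← map_pow, ← map_sub]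
      exact Ideal.Quotient.eq_zero_iff_mem.mpr (h x)
    have := Polynomial.card_le_degree_of_subset_roots hroots
    rw [Finset.card_univ] at this
    exact this.trans hdeg
  have hge : l ∣ Fintype.card (𝓞 F ⧸ Q) := by
    have h1 : (l : 𝓞 F ⧸ Q) = 0 := by
      have := Ideal.Quotient.eq_zero_iff_mem.mpr hlQ
      simpa using this
    have h2 : addOrderOf (1 : 𝓞 F ⧸ Q) ∣ l := by
      rw [addOrderOf_dvd_iff_nsmul_eq_zero]
      simpa using h1
    have h3 : addOrderOf (1 : 𝓞 F ⧸ Q) = l := by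
      rcases (Nat.dvd_prime hl).mp h2 with h | h
      · rw [AddMonoid.addOrderOf_eq_one_iff] at h
        exact absurd h one_ne_zero
      · exact h
    rw [← h3]
    exact addOrderOf_dvd_card
  rw [hcard]
  exact le_antisymm hle (Nat.le_of_dvd Fintype.card_pos hge)

/-- Modulo a prime of prime norm every algebraic integer is congruent to a rational integer. -/
theorem exists_int_sub_mem (Q : Ideal (𝓞 F)) (hQ : (absNorm Q).Prime) (x : 𝓞 F) :
    ∃ n : ℤ, x - (n : 𝓞 F) ∈ Q := by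
  haveI : Fact (absNorm Q).Prime := ⟨hQ⟩
  have hcard : Nat.card (𝓞 F ⧸ Q) = absNorm Q := by
    rw [absNorm_apply, Submodule.cardQuot_apply]
  have h1 : (1 : 𝓞 F ⧸ Q) ≠ 0 := by
    intro h
    have hsub : Subsingleton (𝓞 F ⧸ Q) := subsingleton_of_zero_eq_one h.symm
    have : Nat.card (𝓞 F ⧸ Q) = 1 := Nat.card_unique
    rw [hcard] at this
    exact hQ.ne_one this
  have h2 := zmultiples_eq_top_of_prime_card hcard h1
  have h3 : Ideal.Quotient.mk Q x ∈ AddSubgroup.zmultiples (1 : 𝓞 F ⧸ Q) := by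
    rw [h2]; trivial
  obtain ⟨n, hn⟩ := AddSubgroup.mem_zmultiples_iff.mp h3
  refine ⟨n, ?_⟩
  rw [← Ideal.Quotient.eq_zero_iff_mem, map_sub, ← hn]
  simp

/-- Fermat's little theorem modulo a prime of prime norm. -/
theorem pow_sub_mem_of_absNorm (Q : Ideal (𝓞 F)) (hQn : (absNorm Q).Prime)
    (x : 𝓞 F) : x ^ absNorm Q - x ∈ Q := by
  obtain ⟨n, hn⟩ := exists_int_sub_mem Q hQn x
  haveI : Fact (absNorm Q).Prime := ⟨hQn⟩
  have hl : ((absNorm Q : ℕ) : 𝓞 F) ∈ Q := absNorm_mem Q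
  rw [← Ideal.Quotient.eq_zero_iff_mem] at hn hl ⊢
  rw [map_sub, sub_eq_zero] at hn
  rw [map_sub, map_pow, hn, sub_eq_zero, map_intCast]
  have h1 : ((n ^ absNorm Q - n : ℤ) : 𝓞 F ⧸ Q) = 0 := by
    have h2 : ((absNorm Q : ℕ) : ℤ) ∣ n ^ absNorm Q - n := by
      have := (ZMod.intCast_eq_intCast_iff_dvd_sub n (n ^ absNorm Q) (absNorm Q)).mp (by
        push_cast
        rw [ZMod.pow_card])
      exact this
    obtain ⟨k, hk⟩ := h2
    rw [hk]
    push_cast
    rw [map_natCast] at hl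
    rw [hl, zero_mul]
  push_cast at h1
  exact sub_eq_zero.mp h1

end General

section Galois

variable {L : Type*} [Field L] [NumberField L]

theorem coe_smul_ringOfIntegers (σ : L ≃ₐ[ℚ] L) (x : 𝓞 L) : ((σ • x : 𝓞 L) : L) = σ (x : L) := rfl

/-- The ring of integers of the fixed field, inside `𝓞 L`. -/
theorem smul_algebraMap_of_mem (U : Subgroup (L ≃ₐ[ℚ] L)) {ρ : L ≃ₐ[ℚ] L} (hρ : ρ ∈ U)
    (x : 𝓞 (IntermediateField.fixedField U)) :
    ρ • algebraMap (𝓞 (IntermediateField.fixedField U)) (𝓞 L) x =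
      algebraMap (𝓞 (IntermediateField.fixedField U)) (𝓞 L) x := by
  apply RingOfIntegers.ext
  have h1 := (IntermediateField.mem_fixedField_iff U ((x : IntermediateField.fixedField U) : L)).mp
    (x : IntermediateField.fixedField U).2 ρ hρ
  exact h1

/-- Every integer of `L` lying in the intermediate field `E` comes from `𝓞 E`. -/
theorem exists_algebraMap_eq (E : IntermediateField ℚ L) (x : 𝓞 L) (hx : (x : L) ∈ E) :
    ∃ x' : 𝓞 E, algebraMap (𝓞 E) (𝓞 L) x' = x := by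
  have hint : IsIntegral ℤ (⟨(x : L), hx⟩ : E) := by
    have h1 : IsIntegral ℤ (algebraMap E L ⟨(x : L), hx⟩) := x.2
    exact (isIntegral_algebraMap_iff (algebraMap E L).injective).mp h1
  exact ⟨⟨⟨(x : L), hx⟩, hint⟩, RingOfIntegers.ext rfl⟩

variable [IsGalois ℚ L]

theorem isInvariant_ringOfIntegers : Algebra.IsInvariant ℤ (𝓞 L) (L ≃ₐ[ℚ] L) := by
  refine ⟨fun b hb => ?_⟩
  have h1 : (b : L) ∈ Set.range (algebraMap ℚ L) := by
    rw [InfiniteGalois.mem_range_algebraMap_iff_fixed]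
    intro f
    exact congrArg (fun y : 𝓞 L => (y : L)) (hb f)
  obtain ⟨q, hq⟩ := h1
  have h2 : IsIntegral ℤ (b : L) := b.2
  rw [← hq, isIntegral_algebraMap_iff (algebraMap ℚ L).injective] at h2
  obtain ⟨a, rfl⟩ := IsIntegrallyClosed.algebraMap_eq_of_integral h2
  refine ⟨a, RingOfIntegers.ext ?_⟩
  rw [← hq]
  simp

/-- A Frobenius element at a prime of `𝓞 L` above the rational prime `l`. -/
theorem exists_frob (P : Ideal (𝓞 L)) [hP : P.IsPrime] (l : ℕ) (hl : l.Prime)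
    (hlP : (l : 𝓞 L) ∈ P) :
    ∃ σ : L ≃ₐ[ℚ] L, ∀ x : 𝓞 L, σ • x - x ^ l ∈ P := by
  have hP0 : P ≠ ⊥ := by
    rintro rfl
    have : (l : 𝓞 L) = 0 := by simpa using hlP
    exact hl.ne_zero (by exact_mod_cast this)
  haveI : Finite (𝓞 L ⧸ P) := P.finiteQuotientOfFreeOfNeBot hP0
  haveI := isInvariant_ringOfIntegers (L := L)
  obtain ⟨σ, hσ⟩ := IsArithFrobAt.exists_of_isInvariant ℤ (L ≃ₐ[ℚ] L) P
  have hunder : P.under ℤ = Ideal.span {(l : ℤ)} := by
    have hl0 : (l : ℤ) ≠ 0 := by exact_mod_cast hl.ne_zero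
    haveI hmax : (Ideal.span {(l : ℤ)}).IsMaximal :=
      ((Ideal.span_singleton_prime hl0).mpr (Nat.prime_iff_prime_int.mp hl)).isMaximal
        (by simpa [Ideal.span_singleton_eq_bot] using hl0)
    have hle : Ideal.span {(l : ℤ)} ≤ P.under ℤ := by
      rw [Ideal.span_le, Set.singleton_subset_iff]
      show algebraMap ℤ (𝓞 L) (l : ℤ) ∈ P
      simpa using hlP
    have hne : P.under ℤ ≠ ⊤ := (Ideal.IsPrime.under ℤ P).ne_top
    exact (hmax.eq_of_le hne hle).symm
  have hcard : Nat.card (ℤ ⧸ P.under ℤ) = l := by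
    rw [hunder, Nat.card_congr (Int.quotientSpanNatEquivZMod l).toEquiv, Nat.card_zmod]
  refine ⟨σ, fun x => ?_⟩
  have := hσ x
  rw [hcard] at this
  exact this

/-- Elements of `𝓞 L` in the fixed field of `U` moved by a given `ρ ∉ U`. -/
theorem exists_moved (U : Subgroup (L ≃ₐ[ℚ] L)) {ρ : L ≃ₐ[ℚ] L} (hρ : ρ ∉ U) :
    ∃ y : 𝓞 L, (y : L) ∈ IntermediateField.fixedField U ∧ ρ • y ≠ y := by
  have h1 : ρ ∉ (IntermediateField.fixedField U).fixingSubgroup := by
    rw [IntermediateField.fixingSubgroup_fixedField]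
    exact hρ
  rw [IntermediateField.mem_fixingSubgroup_iff] at h1
  push Not at h1
  obtain ⟨z, hz, hz2⟩ := h1
  have hzalg : IsAlgebraic ℤ z :=
    (IsFractionRing.isAlgebraic_iff ℤ ℚ L).mpr (Algebra.IsAlgebraic.isAlgebraic z)
  obtain ⟨m, hm0, hm⟩ := hzalg.exists_integral_multiple
  refine ⟨⟨m • z, hm⟩, ?_, ?_⟩
  · show m • z ∈ IntermediateField.fixedField U
    rw [zsmul_eq_mul]
    exact mul_mem (intCast_mem _ m) hz
  · intro h
    have h2 : ρ (m • z) = m • z := congrArg (fun y : 𝓞 L => (y : L)) h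
    rw [zsmul_eq_mul, map_mul, map_intCast] at h2
    have hm' : (m : L) ≠ 0 := by exact_mod_cast hm0
    exact hz2 (mul_left_cancel₀ hm' h2)

/-- **Rigidity.** -/
theorem exists_rigid_bound (U : Subgroup (L ≃ₐ[ℚ] L)) :
    ∃ d : ℕ, ∀ l : ℕ, l.Prime → d < l → ∀ P : Ideal (𝓞 L), P.IsPrime → (l : 𝓞 L) ∈ P →
      ∀ ρ : L ≃ₐ[ℚ] L,
        (∀ x : 𝓞 L, (x : L) ∈ IntermediateField.fixedField U → ρ • x - x ∈ P) → ρ ∈ U := by
  classical
  have hex : ∀ ρ : L ≃ₐ[ℚ] L, ∃ y : 𝓞 L, ρ ∉ U →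
      ((y : L) ∈ IntermediateField.fixedField U ∧ ρ • y ≠ y) := by
    intro ρ
    by_cases hρ : ρ ∈ U
    · exact ⟨0, fun h => absurd hρ h⟩
    · obtain ⟨y, hy⟩ := exists_moved U hρ
      exact ⟨y, fun _ => hy⟩
  choose y hy using hex
  refine ⟨∑ ρ : L ≃ₐ[ℚ] L, absNorm (span {ρ • y ρ - y ρ}), ?_⟩
  intro l hl hdl P hP hlP ρ hρ
  by_contra hρU
  obtain ⟨hy1, hy2⟩ := hy ρ hρU
  haveI := hP
  have hlt : absNorm (span {ρ • y ρ - y ρ}) < l :=
    lt_of_le_of_lt (Finset.single_le_sum (f := fun ρ : L ≃ₐ[ℚ] L => absNorm (span {ρ • y ρ - y ρ}))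
      (fun _ _ => Nat.zero_le _) (Finset.mem_univ ρ)) hdl
  exact not_mem_of_absNorm_lt P l hl hlP _ (sub_ne_zero.mpr hy2) hlt (hρ (y ρ) hy1)

end Galois

end Fermat.Agent.S41.H70
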