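import Fermat.Agent.S41.H70.Count
import Fermat.Agent.S41.H70.Rigid

/-!
# S41 / U7-FD (helper70): a Frobenius density theorem (existence form, sub-additive version)

`exists_frobenius_not_mem`: let `L / ℚ` be a finite Galois extension with group `G`, `H ≤ G` a
subgroup and `H' i ≤ H` finitely many subgroups normalised by `H` with
`∑ 1 / [H : H' i] < 1`.  Then for every bound `B` there are a rational prime `l > B`, a prime
`P` of `𝓞 L` above `l` and a Frobenius element `σ` at `P` with `σ ∈ H` and `σ ∉ H' i` for all `i`.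

No Chebotarev, no exact densities, no ramification theory: only the estimate
"the degree-one primes of a number field carry `log (1/(s-1)) + O(1)`" (landed in `S14/H81`),
for the fixed fields of `H` and of the `H' i`.
-/

set_option autoImplicit false
set_option linter.style.haveILetI false

open NumberField Ideal IsDedekindDomain

namespace Fermat.Agent.S41.H70

open Fermat.Agent.S14.H81

section Conj

variable {L : Type*} [Field L] [NumberField L]

/-- The conjugate `τ P` of an ideal of `𝓞 L`. -/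
def conjIdeal (τ : L ≃ₐ[ℚ] L) (P : Ideal (𝓞 L)) : Ideal (𝓞 L) :=
  P.comap (MulSemiringAction.toRingHom (L ≃ₐ[ℚ] L) (𝓞 L) τ⁻¹)

theorem mem_conjIdeal {τ : L ≃ₐ[ℚ] L} {P : Ideal (𝓞 L)} {x : 𝓞 L} :
    x ∈ conjIdeal τ P ↔ τ⁻¹ • x ∈ P := Iff.rfl

instance conjIdeal_isPrime (τ : L ≃ₐ[ℚ] L) (P : Ideal (𝓞 L)) [P.IsPrime] :
    (conjIdeal τ P).IsPrime :=
  Ideal.comap_isPrime _ _

theorem natCast_mem_conjIdeal {τ : L ≃ₐ[ℚ] L} {P : Ideal (𝓞 L)} {n : ℕ} (h : (n : 𝓞 L) ∈ P) :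
    (n : 𝓞 L) ∈ conjIdeal τ P := by
  show MulSemiringAction.toRingHom (L ≃ₐ[ℚ] L) (𝓞 L) τ⁻¹ (n : 𝓞 L) ∈ P
  rw [map_natCast]
  exact h

theorem intCast_smul_ringOfIntegers (τ : L ≃ₐ[ℚ] L) (n : ℤ) : τ • (n : 𝓞 L) = (n : 𝓞 L) := by
  apply RingOfIntegers.ext
  show τ ((n : 𝓞 L) : L) = ((n : 𝓞 L) : L)
  simp

theorem conjIdeal_conjIdeal (ρ τ : L ≃ₐ[ℚ] L) (P : Ideal (𝓞 L)) :
    conjIdeal ρ (conjIdeal τ P) = conjIdeal (ρ * τ) P := by
  ext x
  rw [mem_conjIdeal, mem_conjIdeal, mem_conjIdeal, ← mul_smul, mul_inv_rev]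

theorem frob_conj {P : Ideal (𝓞 L)} {l : ℕ} {σ : L ≃ₐ[ℚ] L}
    (hσ : ∀ x : 𝓞 L, σ • x - x ^ l ∈ P) (τ : L ≃ₐ[ℚ] L) :
    ∀ x : 𝓞 L, (τ * σ * τ⁻¹) • x - x ^ l ∈ conjIdeal τ P := by
  intro x
  rw [mem_conjIdeal, smul_sub, smul_pow', ← mul_smul]
  have h1 : τ⁻¹ * (τ * σ * τ⁻¹) = σ * τ⁻¹ := by group
  rw [h1, mul_smul]
  exact hσ (τ⁻¹ • x)

/-- The prime of `𝓞 E` below a prime of `𝓞 L` containing a nonzero rational integer. -/
noncomputable def underPrime (E : IntermediateField ℚ L) (P : Ideal (𝓞 L)) [P.IsPrime] (n : ℕ)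
    (hn : n ≠ 0) (hnP : (n : 𝓞 L) ∈ P) : HeightOneSpectrum (𝓞 E) :=
  ⟨P.comap (algebraMap (𝓞 E) (𝓞 L)), inferInstance, by
    intro h
    have h1 : (n : 𝓞 E) ∈ P.comap (algebraMap (𝓞 E) (𝓞 L)) := by
      rw [Ideal.mem_comap, map_natCast]; exact hnP
    rw [h, Ideal.mem_bot] at h1
    exact hn (by exact_mod_cast h1)⟩

theorem underPrime_asIdeal (E : IntermediateField ℚ L) (P : Ideal (𝓞 L)) [P.IsPrime] (n : ℕ)
    (hn : n ≠ 0) (hnP : (n : 𝓞 L) ∈ P) :
    (underPrime E P n hn hnP).asIdeal = P.comap (algebraMap (𝓞 E) (𝓞 L)) := rfl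

end Conj

section Main

variable {L : Type*} [Field L] [NumberField L] [IsGalois ℚ L]

/-- (a) The Frobenius at a prime above a degree-one prime of the fixed field of `H` lies in
`H`. -/
theorem exists_bound_frob_mem (H : Subgroup (L ≃ₐ[ℚ] L)) :
    ∃ d : ℕ, ∀ (Q : Ideal (𝓞 (IntermediateField.fixedField H))), (absNorm Q).Prime →
      d < absNorm Q → ∀ P : Ideal (𝓞 L), P.IsPrime →
      P.comap (algebraMap (𝓞 (IntermediateField.fixedField H)) (𝓞 L)) = Q →
      ∀ σ : L ≃ₐ[ℚ] L, (∀ x : 𝓞 L, σ • x - x ^ absNorm Q ∈ P) → σ ∈ H := by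
  obtain ⟨d, hd⟩ := exists_rigid_bound H
  refine ⟨d, fun Q hQn hdQ P hP hPQ σ hσ => ?_⟩
  subst hPQ
  set Q := P.comap (algebraMap (𝓞 (IntermediateField.fixedField H)) (𝓞 L)) with hQ
  have hlP : ((absNorm Q : ℕ) : 𝓞 L) ∈ P := by
    have h1 : ((absNorm Q : ℕ) : 𝓞 (IntermediateField.fixedField H)) ∈ Q := absNorm_mem Q
    rw [hQ, Ideal.mem_comap, map_natCast] at h1
    exact h1
  refine hd (absNorm Q) hQn hdQ P hP hlP σ fun x hx => ?_
  obtain ⟨x', rfl⟩ := exists_algebraMap_eq (IntermediateField.fixedField H) x hx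
  have h1 : x' ^ absNorm Q - x' ∈ Q := pow_sub_mem_of_absNorm Q hQn x'
  have h1' : algebraMap _ (𝓞 L) x' ^ absNorm Q - algebraMap _ (𝓞 L) x' ∈ P := by
    have := h1
    rw [hQ, Ideal.mem_comap, map_sub, map_pow] at this
    exact this
  have h2 := P.add_mem (hσ (algebraMap _ (𝓞 L) x')) h1'
  rwa [sub_add_sub_cancel] at h2

omit [IsGalois ℚ L] in
/-- (b) If the Frobenius at `P` lies in `U`, the prime of the fixed field of `U` below `P` has
degree one. -/
theorem absNorm_comap_of_frob_mem (U : Subgroup (L ≃ₐ[ℚ] L)) (P : Ideal (𝓞 L)) [P.IsPrime]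
    (l : ℕ) (hl : l.Prime) (hlP : (l : 𝓞 L) ∈ P) (σ : L ≃ₐ[ℚ] L) (hσU : σ ∈ U)
    (hσ : ∀ x : 𝓞 L, σ • x - x ^ l ∈ P) :
    absNorm (P.comap (algebraMap (𝓞 (IntermediateField.fixedField U)) (𝓞 L))) = l := by
  refine absNorm_eq_of_pow_sub_mem _ l hl ?_ fun x => ?_
  · rw [Ideal.mem_comap, map_natCast]; exact hlP
  · rw [Ideal.mem_comap, map_sub, map_pow]
    have h1 := hσ (algebraMap _ (𝓞 L) x)
    rw [smul_algebraMap_of_mem U hσU x] at h1
    have h2 := P.neg_mem h1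
    rwa [neg_sub] at h2

/-- (c) Two conjugates of `P` lying over the same degree-one prime of the fixed field of `U`
differ by an element of `U`. -/
theorem exists_bound_conj_mem (U : Subgroup (L ≃ₐ[ℚ] L)) :
    ∃ d : ℕ, ∀ l : ℕ, l.Prime → d < l → ∀ P : Ideal (𝓞 L), P.IsPrime → (l : 𝓞 L) ∈ P →
      (absNorm (P.comap (algebraMap (𝓞 (IntermediateField.fixedField U)) (𝓞 L)))).Prime →
      ∀ ρ : L ≃ₐ[ℚ] L,
        (conjIdeal ρ P).comap (algebraMap (𝓞 (IntermediateField.fixedField U)) (𝓞 L)) =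
          P.comap (algebraMap (𝓞 (IntermediateField.fixedField U)) (𝓞 L)) → ρ ∈ U := by
  obtain ⟨d, hd⟩ := exists_rigid_bound U
  refine ⟨d, fun l hl hdl P hP hlP hQn ρ hρ => ?_⟩
  have h1 : ρ⁻¹ ∈ U := by
    refine hd l hl hdl P hP hlP ρ⁻¹ fun x hx => ?_
    obtain ⟨x', rfl⟩ := exists_algebraMap_eq (IntermediateField.fixedField U) x hx
    obtain ⟨n, hn⟩ := exists_int_sub_mem _ hQn x'
    have hn1 : algebraMap _ (𝓞 L) x' - (n : 𝓞 L) ∈ P := by
      have := hn
      rwa [Ideal.mem_comap, map_sub, map_intCast] at this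
    have hn2 : ρ⁻¹ • algebraMap _ (𝓞 L) x' - (n : 𝓞 L) ∈ P := by
      have := hn
      rw [← hρ, Ideal.mem_comap, map_sub, map_intCast, mem_conjIdeal, smul_sub,
        intCast_smul_ringOfIntegers] at this
      exact this
    have h3 := P.sub_mem hn2 hn1
    rwa [sub_sub_sub_cancel_right] at h3
  simpa using U.inv_mem h1

omit [IsGalois ℚ L] in
/-- (d) The degree-one prime of the fixed field of `H` below `P` is determined by the prime
of any larger fixed field below any `H`-conjugate of `P`. -/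
theorem mem_comap_iff_of_le {H U : Subgroup (L ≃ₐ[ℚ] L)} (hle : U ≤ H) (P : Ideal (𝓞 L))
    {τ : L ≃ₐ[ℚ] L} (hτ : τ ∈ H) (x : 𝓞 (IntermediateField.fixedField H)) :
    x ∈ P.comap (algebraMap (𝓞 (IntermediateField.fixedField H)) (𝓞 L)) ↔
      ∃ x' : 𝓞 (IntermediateField.fixedField U),
        algebraMap (𝓞 (IntermediateField.fixedField U)) (𝓞 L) x' =
          algebraMap (𝓞 (IntermediateField.fixedField H)) (𝓞 L) x ∧
        x' ∈ (conjIdeal τ P).comap (algebraMap (𝓞 (IntermediateField.fixedField U)) (𝓞 L)) := by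
  have hfix : τ⁻¹ • algebraMap (𝓞 (IntermediateField.fixedField H)) (𝓞 L) x =
      algebraMap (𝓞 (IntermediateField.fixedField H)) (𝓞 L) x :=
    smul_algebraMap_of_mem H (H.inv_mem hτ) x
  constructor
  · intro hx
    have hxU : ((algebraMap (𝓞 (IntermediateField.fixedField H)) (𝓞 L) x : 𝓞 L) : L) ∈
        IntermediateField.fixedField U :=
      IntermediateField.fixedField_le hle (x : IntermediateField.fixedField H).2
    obtain ⟨x', hx'⟩ := exists_algebraMap_eq (IntermediateField.fixedField U) _ hxU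
    refine ⟨x', hx', ?_⟩
    rw [Ideal.mem_comap, hx', mem_conjIdeal, hfix]
    exact hx
  · rintro ⟨x', hx', hx'2⟩
    rw [Ideal.mem_comap, hx', mem_conjIdeal, hfix] at hx'2
    exact hx'2

/-- The coset space `H / (U ∩ H)` indexing the conjugates. -/
abbrev CosetT (H U : Subgroup (L ≃ₐ[ℚ] L)) : Type _ := ↥H ⧸ U.subgroupOf H

noncomputable instance (H U : Subgroup (L ≃ₐ[ℚ] L)) : Fintype (CosetT H U) := Fintype.ofFinite _

instance (H U : Subgroup (L ≃ₐ[ℚ] L)) : Nonempty (CosetT H U) := ⟨QuotientGroup.mk 1⟩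

omit [IsGalois ℚ L] in
theorem card_cosetT (H U : Subgroup (L ≃ₐ[ℚ] L)) : Fintype.card (CosetT H U) = U.relIndex H := by
  rw [Subgroup.relIndex, Subgroup.index, Nat.card_eq_fintype_card]

/-- **Frobenius density, existence form (sub-additive version).** -/
theorem exists_frobenius_not_mem
    (H : Subgroup (L ≃ₐ[ℚ] L)) {ι : Type*} [Fintype ι] (H' : ι → Subgroup (L ≃ₐ[ℚ] L))
    (hle : ∀ i, H' i ≤ H)
    (hnormal : ∀ i, ∀ τ ∈ H, ∀ σ ∈ H' i, τ * σ * τ⁻¹ ∈ H' i)
    (hsum : ∑ i, (1 : ℝ) / ((H' i).relIndex H : ℝ) < 1) (B : ℕ) :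
    ∃ (l : ℕ) (P : Ideal (𝓞 L)) (σ : L ≃ₐ[ℚ] L), l.Prime ∧ B < l ∧ P.IsPrime ∧ (l : 𝓞 L) ∈ P ∧
      σ ∈ H ∧ (∀ i, σ ∉ H' i) ∧ ∀ x : 𝓞 L, σ • x - x ^ l ∈ P := by
  classical
  by_contra hcon
  -- the bounds
  obtain ⟨dH, hdH⟩ := exists_bound_frob_mem H
  have hdc := fun i => exists_bound_conj_mem (H' i)
  choose dc hdc using hdc
  set D : ℕ := max B (dH + ∑ i, dc i) with hD
  have hBD : B ≤ D := le_max_left _ _
  have hdHD : dH ≤ D := (Nat.le_add_right _ _).trans (le_max_right _ _)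
  have hdcD : ∀ i, dc i ≤ D := fun i =>
    ((Finset.single_le_sum (f := dc) (fun _ _ => Nat.zero_le _) (Finset.mem_univ i)).trans
      (Nat.le_add_left _ _)).trans (le_max_right _ _)
  -- a prime of `𝓞 L` above every prime of the fixed field of `H`
  have hPex : ∀ v : HeightOneSpectrum (𝓞 (IntermediateField.fixedField H)),
      ∃ P : Ideal (𝓞 L), P.IsPrime ∧
        P.comap (algebraMap (𝓞 (IntermediateField.fixedField H)) (𝓞 L)) = v.asIdeal := by
    intro v
    haveI := v.isMaximal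
    obtain ⟨P, hPmax, hPv⟩ := Ideal.exists_ideal_over_maximal_of_isIntegral (S := 𝓞 L) v.asIdeal (by
      rw [(RingHom.injective_iff_ker_eq_bot
        (algebraMap (𝓞 (IntermediateField.fixedField H)) (𝓞 L))).mp
        (FaithfulSMul.algebraMap_injective _ _)]
      exact bot_le)
    exact ⟨P, hPmax.isPrime, hPv⟩
  choose PP hPPprime hPPcomap using hPex
  -- norms
  set nv : HeightOneSpectrum (𝓞 (IntermediateField.fixedField H)) → ℕ :=
    fun v => absNorm v.asIdeal with hnv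
  have hnv0 : ∀ v, nv v ≠ 0 := by
    intro v
    rw [hnv]
    simp only [Ne, absNorm_eq_zero_iff]
    exact v.ne_bot
  have hnvP : ∀ v, ((nv v : ℕ) : 𝓞 L) ∈ PP v := by
    intro v
    have h1 : ((nv v : ℕ) : 𝓞 (IntermediateField.fixedField H)) ∈ v.asIdeal :=
      absNorm_mem _
    have h2 : ((nv v : ℕ) : 𝓞 (IntermediateField.fixedField H)) ∈
        (PP v).comap (algebraMap (𝓞 (IntermediateField.fixedField H)) (𝓞 L)) := by
      rw [hPPcomap v]; exact h1
    rw [Ideal.mem_comap, map_natCast] at h2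
    exact h2
  -- Frobenius elements
  have hFex : ∀ v, ∃ σ : L ≃ₐ[ℚ] L, (nv v).Prime → ∀ x : 𝓞 L, σ • x - x ^ (nv v) ∈ PP v := by
    intro v
    by_cases h : (nv v).Prime
    · haveI := hPPprime v
      obtain ⟨σ, hσ⟩ := exists_frob (PP v) (nv v) h (hnvP v)
      exact ⟨σ, fun _ => hσ⟩
    · exact ⟨1, fun h' => absurd h' h⟩
  choose σ hσ using hFex
  -- every degree-one prime of large norm has its Frobenius in some `H' i`
  have hbadex : ∀ v, (nv v).Prime → D < nv v → ∃ i, σ v ∈ H' i := by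
    intro v hv hDv
    by_contra hno
    push Not at hno
    refine hcon ⟨nv v, PP v, σ v, hv, lt_of_le_of_lt hBD hDv, hPPprime v, hnvP v, ?_, hno,
      hσ v hv⟩
    exact hdH v.asIdeal hv (lt_of_le_of_lt hdHD hDv) (PP v) (hPPprime v) (hPPcomap v) (σ v)
      (hσ v hv)
  -- the bad sets and the maps
  let bad : ι → Set (HeightOneSpectrum (𝓞 (IntermediateField.fixedField H))) :=
    fun i => {v | (nv v).Prime ∧ D < nv v ∧ σ v ∈ H' i}
  let τ : ∀ i, CosetT H (H' i) → (L ≃ₐ[ℚ] L) := fun i t => ((Quotient.out t : ↥H) : L ≃ₐ[ℚ] L)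
  have hτ : ∀ i t, τ i t ∈ H := fun i t => (Quotient.out t : ↥H).2
  let J : ∀ i, HeightOneSpectrum (𝓞 (IntermediateField.fixedField H)) → CosetT H (H' i) →
      HeightOneSpectrum (𝓞 (IntermediateField.fixedField (H' i))) :=
    fun i v t => @underPrime L _ _ (IntermediateField.fixedField (H' i))
      (conjIdeal (τ i t) (PP v)) (@conjIdeal_isPrime _ _ _ _ _ (hPPprime v)) (nv v) (hnv0 v)
      (natCast_mem_conjIdeal (hnvP v))
  have hJasIdeal : ∀ i v t, (J i v t).asIdeal = (conjIdeal (τ i t) (PP v)).comap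
      (algebraMap (𝓞 (IntermediateField.fixedField (H' i))) (𝓞 L)) := fun i v t => rfl
  have hJnorm : ∀ i, ∀ v ∈ bad i, ∀ t, absNorm (J i v t).asIdeal = absNorm v.asIdeal := by
    intro i v hv t
    rw [hJasIdeal]
    haveI := hPPprime v
    exact absNorm_comap_of_frob_mem (H' i) (conjIdeal (τ i t) (PP v)) (nv v) hv.1
      (natCast_mem_conjIdeal (hnvP v)) (τ i t * σ v * (τ i t)⁻¹)
      (hnormal i (τ i t) (hτ i t) (σ v) hv.2.2) (frob_conj (hσ v hv.1) (τ i t))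
  have hJinj : ∀ i, ∀ v ∈ bad i, ∀ v' ∈ bad i, ∀ t t', J i v t = J i v' t' → v = v' ∧ t = t' := by
    intro i v hv v' hv' t t' heq
    have hQ : (conjIdeal (τ i t) (PP v)).comap
        (algebraMap (𝓞 (IntermediateField.fixedField (H' i))) (𝓞 L)) =
        (conjIdeal (τ i t') (PP v')).comap
        (algebraMap (𝓞 (IntermediateField.fixedField (H' i))) (𝓞 L)) := by
      rw [← hJasIdeal, ← hJasIdeal, heq]
    have hvv : v = v' := by
      apply HeightOneSpectrum.ext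
      ext x
      rw [← hPPcomap v, ← hPPcomap v', mem_comap_iff_of_le (hle i) (PP v) (hτ i t) x,
        mem_comap_iff_of_le (hle i) (PP v') (hτ i t') x, hQ]
    subst hvv
    refine ⟨rfl, ?_⟩
    haveI := hPPprime v
    have hnormprime : (absNorm ((conjIdeal (τ i t) (PP v)).comap
        (algebraMap (𝓞 (IntermediateField.fixedField (H' i))) (𝓞 L)))).Prime := by
      rw [← hJasIdeal, hJnorm i v hv t]
      exact hv.1
    have hρ : τ i t' * (τ i t)⁻¹ ∈ H' i := by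
      refine hdc i (nv v) hv.1 (lt_of_le_of_lt (hdcD i) hv.2.1) (conjIdeal (τ i t) (PP v))
        inferInstance (natCast_mem_conjIdeal (hnvP v)) hnormprime (τ i t' * (τ i t)⁻¹) ?_
      rw [conjIdeal_conjIdeal, inv_mul_cancel_right]
      exact hQ.symm
    have hρ' : (τ i t)⁻¹ * τ i t' ∈ H' i := by
      have := hnormal i (τ i t)⁻¹ (H.inv_mem (hτ i t)) _ hρ
      simpa [mul_assoc] using this
    have hmk : (QuotientGroup.mk (Quotient.out t) : CosetT H (H' i)) =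
        QuotientGroup.mk (Quotient.out t') := by
      rw [QuotientGroup.eq, Subgroup.mem_subgroupOf]
      simpa using hρ'
    rw [QuotientGroup.out_eq', QuotientGroup.out_eq'] at hmk
    exact hmk
  have hsum' : ∑ i, (1 : ℝ) / (Fintype.card (CosetT H (H' i))) < 1 := by
    simp only [card_cosetT]
    exact hsum
  refine not_finite_degOne_diff (IntermediateField.fixedField H)
    (fun i => ↥(IntermediateField.fixedField (H' i))) (fun i => CosetT H (H' i)) hsum' bad J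
    hJnorm hJinj ?_
  -- finiteness of the exceptional set
  have hfin : {v : HeightOneSpectrum (𝓞 (IntermediateField.fixedField H)) |
      absNorm v.asIdeal ≤ D}.Finite := by
    have h1 := Ideal.finite_setOfPred_absNorm_le (S := 𝓞 (IntermediateField.fixedField H)) D
    exact Set.Finite.preimage (f := fun v : HeightOneSpectrum
      (𝓞 (IntermediateField.fixedField H)) => v.asIdeal)
      (fun v _ w _ h => HeightOneSpectrum.ext h) h1
  refine hfin.subset fun v hv => ?_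
  by_contra hlt
  rw [Set.mem_ofPred_eq, not_le] at hlt
  obtain ⟨i, hi⟩ := hbadex v hv.1 hlt
  exact hv.2 (Set.mem_iUnion.mpr ⟨i, hv.1, hlt, hi⟩)

/-- The same statement with the Frobenius congruence written in `L`. -/
theorem exists_frobenius_not_mem'
    (H : Subgroup (L ≃ₐ[ℚ] L)) {ι : Type*} [Fintype ι] (H' : ι → Subgroup (L ≃ₐ[ℚ] L))
    (hle : ∀ i, H' i ≤ H)
    (hnormal : ∀ i, ∀ τ ∈ H, ∀ σ ∈ H' i, τ * σ * τ⁻¹ ∈ H' i)
    (hsum : ∑ i, (1 : ℝ) / ((H' i).relIndex H : ℝ) < 1) (B : ℕ) :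
    ∃ (l : ℕ) (P : Ideal (𝓞 L)) (σ : L ≃ₐ[ℚ] L), l.Prime ∧ B < l ∧ P.IsPrime ∧ (l : 𝓞 L) ∈ P ∧
      σ ∈ H ∧ (∀ i, σ ∉ H' i) ∧
      ∀ x : 𝓞 L, ∃ y ∈ P, σ (x : L) - (x : L) ^ l = (y : L) := by
  obtain ⟨l, P, σ, hl, hBl, hP, hlP, hσH, hσ', hσ⟩ :=
    exists_frobenius_not_mem H H' hle hnormal hsum B
  exact ⟨l, P, σ, hl, hBl, hP, hlP, hσH, hσ', fun x => ⟨σ • x - x ^ l, hσ x, rfl⟩⟩

end Main

end Fermat.Agent.S41.H70
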