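import Fermat.Agent.S41.H70.FrobDensity

/-!
# S41 / U7-FD (helper70): Frobenius density, "all primes above `l`, all Frobenius elements" form

`exists_prime_forall_frobenius`: in the situation of `exists_frobenius_not_mem` there are
arbitrarily large rational primes `l` such that EVERY Frobenius element at EVERY prime of `𝓞 L`
above `l` is conjugate to an element of `H` outside all the `H' i`.
(Transitivity of the Galois action on the primes above `l` + uniqueness of the Frobenius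
element for `l` large, by the rigidity lemma.)
-/

set_option autoImplicit false
set_option linter.style.haveILetI false

open NumberField Ideal IsDedekindDomain

namespace Fermat.Agent.S41.H70

section

variable {L : Type*} [Field L] [NumberField L] [IsGalois ℚ L]

omit [IsGalois ℚ L] in
/-- The rational prime below a prime of `𝓞 L`. -/
theorem under_int_eq (P : Ideal (𝓞 L)) [hP : P.IsPrime] (l : ℕ) (hl : l.Prime)
    (hlP : (l : 𝓞 L) ∈ P) : P.under ℤ = Ideal.span {(l : ℤ)} := by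
  have hl0 : (l : ℤ) ≠ 0 := by exact_mod_cast hl.ne_zero
  haveI hmax : (Ideal.span {(l : ℤ)}).IsMaximal :=
    ((Ideal.span_singleton_prime hl0).mpr (Nat.prime_iff_prime_int.mp hl)).isMaximal
      (by simpa [Ideal.span_singleton_eq_bot] using hl0)
  have hle : Ideal.span {(l : ℤ)} ≤ P.under ℤ := by
    rw [Ideal.span_le, Set.singleton_subset_iff]
    show algebraMap ℤ (𝓞 L) (l : ℤ) ∈ P
    simpa using hlP
  have hne : P.under ℤ ≠ ⊤ := (Ideal.IsPrime.under ℤ P).ne_top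
  exact (hmax.eq_of_le hne hle).symm

/-- Uniqueness of the Frobenius element at primes above large rational primes. -/
theorem exists_bound_frob_unique :
    ∃ d : ℕ, ∀ l : ℕ, l.Prime → d < l → ∀ P : Ideal (𝓞 L), P.IsPrime → (l : 𝓞 L) ∈ P →
      ∀ σ σ' : L ≃ₐ[ℚ] L, (∀ x : 𝓞 L, σ • x - x ^ l ∈ P) → (∀ x : 𝓞 L, σ' • x - x ^ l ∈ P) →
        σ = σ' := by
  obtain ⟨d, hd⟩ := exists_rigid_bound (⊥ : Subgroup (L ≃ₐ[ℚ] L))
  refine ⟨d, fun l hl hdl P hP hlP σ σ' hσ hσ' => ?_⟩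
  have h1 : σ * σ'⁻¹ ∈ (⊥ : Subgroup (L ≃ₐ[ℚ] L)) := by
    refine hd l hl hdl P hP hlP _ fun x _ => ?_
    have h2 := P.sub_mem (hσ (σ'⁻¹ • x)) (hσ' (σ'⁻¹ • x))
    rw [sub_sub_sub_cancel_right, smul_inv_smul, ← mul_smul] at h2
    exact h2
  rw [Subgroup.mem_bot] at h1
  exact mul_inv_eq_one.mp h1

/-- **Frobenius density, "for all Frobenius elements above `l`" form.** -/
theorem exists_prime_forall_frobenius
    (H : Subgroup (L ≃ₐ[ℚ] L)) {ι : Type*} [Fintype ι] (H' : ι → Subgroup (L ≃ₐ[ℚ] L))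
    (hle : ∀ i, H' i ≤ H)
    (hnormal : ∀ i, ∀ τ ∈ H, ∀ σ ∈ H' i, τ * σ * τ⁻¹ ∈ H' i)
    (hsum : ∑ i, (1 : ℝ) / ((H' i).relIndex H : ℝ) < 1) (B : ℕ) :
    ∃ l : ℕ, l.Prime ∧ B < l ∧ ∀ P : Ideal (𝓞 L), P.IsPrime → (l : 𝓞 L) ∈ P →
      ∀ σ : L ≃ₐ[ℚ] L, (∀ x : 𝓞 L, σ • x - x ^ l ∈ P) →
        ∃ τ : L ≃ₐ[ℚ] L, τ * σ * τ⁻¹ ∈ H ∧ ∀ i, τ * σ * τ⁻¹ ∉ H' i := by
  obtain ⟨d, hd⟩ := exists_bound_frob_unique (L := L)
  obtain ⟨l, P₀, σ₀, hl, hBl, hP₀, hlP₀, hσ₀H, hσ₀', hσ₀⟩ :=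
    exists_frobenius_not_mem H H' hle hnormal hsum (max B d)
  refine ⟨l, hl, lt_of_le_of_lt (le_max_left _ _) hBl, fun P hP hlP σ hσ => ?_⟩
  haveI := hP₀
  haveI := hP
  haveI := isInvariant_ringOfIntegers (L := L)
  obtain ⟨g, hg⟩ := Algebra.IsInvariant.exists_smul_of_under_eq ℤ (𝓞 L) (L ≃ₐ[ℚ] L) P₀ P
    ((under_int_eq P₀ l hl hlP₀).trans (under_int_eq P l hl hlP).symm)
  have hPconj : P = conjIdeal g P₀ := by
    rw [hg]
    ext x
    rw [Ideal.mem_pointwise_smul_iff_inv_smul_mem, mem_conjIdeal]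
  have h1 : ∀ x : 𝓞 L, (g * σ₀ * g⁻¹) • x - x ^ l ∈ P := by
    rw [hPconj]
    exact frob_conj hσ₀ g
  have h2 : σ = g * σ₀ * g⁻¹ :=
    hd l hl (lt_of_le_of_lt (le_max_right _ _) hBl) P hP hlP σ _ hσ h1
  refine ⟨g⁻¹, ?_, fun i => ?_⟩
  · rw [h2]
    have : g⁻¹ * (g * σ₀ * g⁻¹) * g⁻¹⁻¹ = σ₀ := by group
    rw [this]
    exact hσ₀H
  · rw [h2]
    have : g⁻¹ * (g * σ₀ * g⁻¹) * g⁻¹⁻¹ = σ₀ := by group
    rw [this]
    exact hσ₀' i

end

end Fermat.Agent.S41.H70
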