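import Fermat.Agent.S41.H70.FrobVal
import Fermat.Agent.S41.H2.NeAsm
import Fermat.Agent.S54.Frobenius

/-!
# S41 / U7-QBAR (helper70): decomposition groups meet every coset of prime-power order

`qbar_leaf : Fermat.Agent.S41.H2.QbarStatement` (the leaf U7-QBAR of helper2's U7 assembly,
verbatim), from the landed Frobenius density theorem `exists_prime_forall_isFrobeniusAt_aux`.
-/

set_option autoImplicit false
set_option linter.style.haveILetI false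

open NumberField Ideal IsDedekindDomain
open scoped Pointwise

namespace Fermat.Agent.S41.H70

section Open

variable {Ω : Type*} [Field Ω] [Algebra ℚ Ω] [IsGalois ℚ Ω]

/-- Frobenius density for an open proper subgroup `𝓗₁ < 𝓗` of `Gal(Ω/ℚ)` normalised by `𝓗`. -/
theorem exists_prime_forall_isFrobeniusAt_of_lt_of_isOpen
    (𝓗 𝓗₁ : Subgroup (Ω ≃ₐ[ℚ] Ω)) (hopen : IsOpen (𝓗₁ : Set (Ω ≃ₐ[ℚ] Ω)))
    (hlt : 𝓗₁ < 𝓗)
    (hnormal : ∀ τ ∈ 𝓗, ∀ σ ∈ 𝓗₁, τ * σ * τ⁻¹ ∈ 𝓗₁) (B : ℕ) :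
    ∃ l : ℕ, l.Prime ∧ B < l ∧ ∀ A : ValuationSubring Ω, A.LiesOverPrime l →
      ∀ σ : Ω ≃ₐ[ℚ] Ω, A.IsFrobeniusAt σ l →
        ∃ τ : Ω ≃ₐ[ℚ] Ω, τ * σ * τ⁻¹ ∈ 𝓗 ∧ τ * σ * τ⁻¹ ∉ 𝓗₁ := by
  have hnhds : (𝓗₁ : Set (Ω ≃ₐ[ℚ] Ω)) ∈ nhds (1 : Ω ≃ₐ[ℚ] Ω) := hopen.mem_nhds 𝓗₁.one_mem
  obtain ⟨E, hfd, hnormal₁, hE⟩ := (krullTopology_mem_nhds_one_iff_of_normal ℚ Ω _).mp hnhds
  haveI : NumberField E := by
    refine @NumberField.mk _ _ inferInstance ?_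
    convert hfd
    all_goals first
      | rfl
      | exact (subsingleton_rat_module (↥E)).elim _ _
  haveI : Normal ℚ E := by
    convert hnormal₁
    all_goals first
      | rfl
      | exact Rat.algebra_rat_subsingleton.elim _ _
  haveI : IsGalois ℚ E := ⟨⟩
  have hrsurj := AlgEquiv.restrictNormalHom_surjective (F := ℚ) (K₁ := ↥E) Ω
  have hr : ∀ (σ : Ω ≃ₐ[ℚ] Ω) (x : ↥E),
      algebraMap (↥E) Ω (AlgEquiv.restrictNormalHom (F := ℚ) (K₁ := Ω) ↥E σ x) =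
        σ (algebraMap (↥E) Ω x) :=
    fun σ x => AlgEquiv.restrictNormal_commutes σ _ x
  have hker : (AlgEquiv.restrictNormalHom (F := ℚ) (K₁ := Ω) ↥E).ker ≤ 𝓗₁ := by
    intro σ hσ
    rw [MonoidHom.mem_ker] at hσ
    refine hE ?_
    rw [SetLike.mem_coe, IntermediateField.mem_fixingSubgroup_iff]
    intro x hx
    have h1 := hr σ ⟨x, hx⟩
    rw [hσ] at h1
    exact h1.symm
  have h1 : 𝓗₁.relIndex 𝓗 ≠ 1 := fun h => (not_le_of_gt hlt) (Subgroup.relIndex_eq_one.mp h)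
  have hsum : ∑ _i : Unit, (1 : ℝ) / ((𝓗₁.relIndex 𝓗 : ℕ) : ℝ) < 1 := by
    simp only [Finset.univ_unique, Finset.sum_singleton]
    rcases Nat.eq_zero_or_pos (𝓗₁.relIndex 𝓗) with h0 | hpos
    · rw [h0]; simp
    · have h2 : 2 ≤ 𝓗₁.relIndex 𝓗 := by omega
      rw [div_lt_one (by exact_mod_cast hpos)]
      exact_mod_cast h2
  obtain ⟨l, hl, hBl, h⟩ := exists_prime_forall_isFrobeniusAt_aux (algebraMap (↥E) Ω)
    (AlgEquiv.restrictNormalHom (F := ℚ) (K₁ := Ω) ↥E) hr hrsurj 𝓗 (hker.trans hlt.le)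
    (fun _ : Unit => 𝓗₁) (fun _ => hker) (fun _ => hlt.le) (fun _ => hnormal) hsum B
  exact ⟨l, hl, hBl, fun A hA σ hσ =>
    let ⟨τ, h1, h2⟩ := h A hA σ hσ
    ⟨τ, h1, h2 ()⟩⟩

end Open

section Leaf

/-- Conjugate valuation subrings lie over the same prime. -/
theorem smul_liesOverPrime {Ω : Type*} [Field Ω] [Algebra ℚ Ω] (A : ValuationSubring Ω)
    (τ : Ω ≃ₐ[ℚ] Ω) {l : ℕ} (hA : A.LiesOverPrime l) : (τ • A).LiesOverPrime l := by
  unfold ValuationSubring.LiesOverPrime at hA ⊢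
  rw [ValuationSubring.mem_nonunits_iff_or] at hA ⊢
  rcases hA with h | h
  · exact Or.inl h
  · right
    rw [ValuationSubring.mem_pointwise_smul_iff_inv_smul_mem]
    have h1 : τ⁻¹ • ((l : Ω)⁻¹) = (l : Ω)⁻¹ := by
      show τ⁻¹ ((l : Ω)⁻¹) = _
      rw [map_inv₀, map_natCast]
    rw [h1]
    exact h

local notation "Qbar" => AlgebraicClosure ℚ
local notation "Γ" => (AlgebraicClosure ℚ ≃ₐ[ℚ] AlgebraicClosure ℚ)

/-- **(QBAR)** For an open normal subgroup `H` of `Gal(ℚbar/ℚ)` and `σ ∉ H` of prime-power order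
modulo `H`: outside any finite set of primes there are a prime `l`, a valuation subring `A` of
`ℚbar` over `l` and an element `g` of the decomposition group of `A` in the coset `σ H`. -/
theorem exists_decomposition_mem_coset (H : Subgroup Γ) [H.Normal] (hH : IsOpen (H : Set Γ))
    (σ : Γ) (r a : ℕ) (hr : r.Prime) (hσ : σ ∉ H) (hpow : σ ^ (r ^ a) ∈ H) (S : Finset ℕ) :
    ∃ (l : ℕ) (A : ValuationSubring Qbar) (g : Γ), l.Prime ∧ l ∉ S ∧ A.LiesOverPrime l ∧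
      g ∈ A.decompositionSubgroup ℚ ∧ g⁻¹ * σ ∈ H := by
  haveI := Fermat.Agent.S54.isGalois_algebraicClosure_rat
  set π := QuotientGroup.mk' H with hπ
  set s : Γ ⧸ H := π σ with hs
  have hs1 : s ≠ 1 := fun h => hσ ((QuotientGroup.eq_one_iff σ).mp h)
  have hspow : s ^ (r ^ a) = 1 := by
    rw [hs, ← map_pow]
    exact (QuotientGroup.eq_one_iff _).mpr hpow
  obtain ⟨b, -, hb'⟩ := (Nat.dvd_prime_pow hr).mp (orderOf_dvd_of_pow_eq_one hspow)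
  have hord : r ∣ orderOf s := by
    rcases Nat.eq_zero_or_pos b with rfl | hbpos
    · rw [pow_zero, orderOf_eq_one_iff] at hb'
      exact absurd hb' hs1
    · rw [hb']
      exact dvd_pow_self r hbpos.ne'
  -- the subgroups
  set 𝓗 : Subgroup Γ := (Subgroup.zpowers s).comap π with h𝓗
  set 𝓗₁ : Subgroup Γ := (Subgroup.zpowers (s ^ r)).comap π with h𝓗₁
  have hH𝓗₁ : H ≤ 𝓗₁ := by
    intro x hx
    rw [h𝓗₁, Subgroup.mem_comap]
    have : π x = 1 := (QuotientGroup.eq_one_iff x).mpr hx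
    rw [this]
    exact Subgroup.one_mem _
  have hopen : IsOpen (𝓗₁ : Set Γ) := Subgroup.isOpen_mono hH𝓗₁ hH
  have hle : 𝓗₁ ≤ 𝓗 :=
    Subgroup.comap_mono (Subgroup.zpowers_le.mpr (Subgroup.pow_mem _ (Subgroup.mem_zpowers s) r))
  have hkey : ∀ k : ℤ, s ^ k ∈ Subgroup.zpowers (s ^ r) → (r : ℤ) ∣ k := by
    intro k hk
    obtain ⟨m, hm⟩ := Subgroup.mem_zpowers_iff.mp hk
    have h1 : s ^ ((r : ℤ) * m - k) = 1 := by
      rw [zpow_sub, zpow_mul, zpow_natCast, hm, mul_inv_cancel]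
    have h2 : (orderOf s : ℤ) ∣ (r : ℤ) * m - k := orderOf_dvd_iff_zpow_eq_one.mpr h1
    have h3 : (r : ℤ) ∣ (r : ℤ) * m - k := (Int.natCast_dvd_natCast.mpr hord).trans h2
    have h4 : (r : ℤ) ∣ (r : ℤ) * m := dvd_mul_right _ _
    have h5 := dvd_sub h4 h3
    simpa using h5
  have hσ𝓗 : σ ∈ 𝓗 := by
    rw [h𝓗, Subgroup.mem_comap]
    exact Subgroup.mem_zpowers s
  have hσ𝓗₁ : σ ∉ 𝓗₁ := by
    intro h
    rw [h𝓗₁, Subgroup.mem_comap] at h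
    have h1 := hkey 1 (by simpa using h)
    have h2 : r ∣ 1 := by exact_mod_cast h1
    exact hr.one_lt.ne' (Nat.dvd_one.mp h2)
  have hlt : 𝓗₁ < 𝓗 := lt_of_le_of_ne hle (fun h => hσ𝓗₁ (h ▸ hσ𝓗))
  have hnormal : ∀ τ ∈ 𝓗, ∀ ρ ∈ 𝓗₁, τ * ρ * τ⁻¹ ∈ 𝓗₁ := by
    intro τ hτ ρ hρ
    rw [h𝓗, Subgroup.mem_comap] at hτ
    rw [h𝓗₁, Subgroup.mem_comap] at hρ ⊢
    obtain ⟨i, hi⟩ := Subgroup.mem_zpowers_iff.mp hτ
    obtain ⟨j, hj⟩ := Subgroup.mem_zpowers_iff.mp hρ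
    have h1 : π (τ * ρ * τ⁻¹) = π ρ := by
      rw [map_mul, map_mul, map_inv, ← hi, ← hj, ← zpow_natCast s r, ← zpow_mul, ← zpow_add,
        ← zpow_neg, ← zpow_add]
      congr 1
      ring
    rw [h1]
    exact hρ
  obtain ⟨l, hl, hBl, hall⟩ :=
    exists_prime_forall_isFrobeniusAt_of_lt_of_isOpen 𝓗 𝓗₁ hopen hlt hnormal (S.sup id)
  obtain ⟨A, hA, τ, hτ⟩ := Fermat.Agent.S54.exists_isFrobeniusAt l hl
  obtain ⟨τ', hρ, hρ'⟩ := hall A hA τ hτ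
  rw [h𝓗, Subgroup.mem_comap] at hρ
  obtain ⟨k, hk⟩ := Subgroup.mem_zpowers_iff.mp hρ
  have hrk : ¬ (r : ℤ) ∣ k := by
    rintro ⟨c, rfl⟩
    apply hρ'
    rw [h𝓗₁, Subgroup.mem_comap, ← hk, zpow_mul, zpow_natCast]
    exact Subgroup.zpow_mem _ (Subgroup.mem_zpowers _) c
  have hcop : IsCoprime k ((orderOf s : ℕ) : ℤ) := by
    rw [hb']
    push_cast
    exact IsCoprime.pow_right
      (((Nat.prime_iff_prime_int.mp hr).irreducible.coprime_iff_not_dvd).mpr hrk).symm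
  obtain ⟨x, y, hxy⟩ := hcop
  have hsx : (π (τ' * τ * τ'⁻¹)) ^ x = s := by
    rw [← hk, ← zpow_mul]
    have h1 : k * x = 1 - y * (orderOf s : ℤ) := by linarith
    rw [h1, zpow_sub, zpow_one, mul_comm y, zpow_mul, zpow_natCast, pow_orderOf_eq_one, one_zpow,
      inv_one, mul_one]
  refine ⟨l, τ' • A, (τ' * τ * τ'⁻¹) ^ x, hl, ?_, smul_liesOverPrime A τ' hA, ?_, ?_⟩
  · intro hmem
    have h1 : l ≤ S.sup id := Finset.le_sup (f := id) hmem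
    omega
  · apply Subgroup.zpow_mem
    rw [MulAction.mem_stabilizer_iff, mul_smul, mul_smul, inv_smul_smul]
    congr 1
    exact MulAction.mem_stabilizer_iff.mp hτ.mem_decompositionSubgroup
  · rw [← QuotientGroup.eq]
    show π ((τ' * τ * τ'⁻¹) ^ x) = π σ
    rw [map_zpow, hsx]

/-- The leaf U7-QBAR of helper2's U7 assembly (`Fermat.Agent.S41.H2.ne_witness_of`). -/
theorem qbar_leaf : Fermat.Agent.S41.H2.QbarStatement :=
  fun H _ hH σ r a hr hσ hpow S => exists_decomposition_mem_coset H hH σ r a hr hσ hpow S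

end Leaf

end Fermat.Agent.S41.H70
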