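import Fermat.Agent.S14.H81.DegreeOne

/-!
# S41 / U7-FD (helper70): the sub-additive counting lemma

Abstract analytic core of the Frobenius-density leaf.  If the degree-one primes of a number
field `K`, up to finitely many, are covered by sets `bad i` such that `bad i` injects,
`card (T i)`-to-one and norm-preservingly, into the primes of a number field `M i`, then
`∑ 1 / card (T i) ≥ 1`.  Only the two-sided estimate "degree-one primes carry
`log (1/(s-1)) + O(1)`" (landed in `S14/H81`) is used.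
-/

set_option autoImplicit false

open Filter Topology NumberField Ideal IsDedekindDomain

namespace Fermat.Agent.S41.H70

open Fermat.Agent.S14.H81

theorem rpow_absNorm_le_one (K : Type*) [Field K] [NumberField K] {s : ℝ} (hs : 0 ≤ s)
    (v : HeightOneSpectrum (𝓞 K)) : (absNorm v.asIdeal : ℝ) ^ (-s) ≤ 1 := by
  have h1 : (1 : ℝ) ≤ (absNorm v.asIdeal : ℝ) := by
    have h0 : absNorm v.asIdeal ≠ 0 := by
      rw [Ne, absNorm_eq_zero_iff]
      exact v.ne_bot
    exact_mod_cast Nat.one_le_iff_ne_zero.mpr h0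
  exact Real.rpow_le_one_of_one_le_of_nonpos h1 (by linarith)

/-- The sub-additive count. -/
theorem not_finite_degOne_diff
    (K : Type*) [Field K] [NumberField K]
    {ι : Type*} [Fintype ι] (M : ι → Type*) [∀ i, Field (M i)] [∀ i, NumberField (M i)]
    (T : ι → Type*) [∀ i, Fintype (T i)] [∀ i, Nonempty (T i)]
    (hsum : ∑ i, (1 : ℝ) / (Fintype.card (T i)) < 1)
    (bad : ι → Set (HeightOneSpectrum (𝓞 K)))
    (J : ∀ i, HeightOneSpectrum (𝓞 K) → T i → HeightOneSpectrum (𝓞 (M i)))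
    (hJnorm : ∀ i, ∀ v ∈ bad i, ∀ t, absNorm (J i v t).asIdeal = absNorm v.asIdeal)
    (hJinj : ∀ i, ∀ v ∈ bad i, ∀ v' ∈ bad i, ∀ t t', J i v t = J i v' t' → v = v' ∧ t = t') :
    ¬ (degOne K \ ⋃ i, bad i).Finite := by
  classical
  intro hfin
  obtain ⟨CK, hCK⟩ := exists_abs_degOneSum_sub_le K
  have hCM : ∀ i, ∃ C : ℝ, ∀ s : ℝ, 1 < s → s ≤ 2 → ∀ U : Finset (HeightOneSpectrum (𝓞 (M i))),
      ∑ v ∈ U, (absNorm v.asIdeal : ℝ) ^ (-s) ≤ Real.log (1 / (s - 1)) + C :=
    fun i ↦ exists_sum_prime_le (M i)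
  choose CM hCM using hCM
  set R : Finset (HeightOneSpectrum (𝓞 K)) := hfin.toFinset with hR
  set c : ℝ := 1 - ∑ i, (1 : ℝ) / (Fintype.card (T i)) with hc
  have hcpos : 0 < c := by rw [hc]; linarith
  set A : ℝ := CK + 1 + R.card + ∑ i, (1 : ℝ) / (Fintype.card (T i)) * CM i with hA
  -- the key inequality, for every `s ∈ (1, 2]`
  have key : ∀ s : ℝ, 1 < s → s ≤ 2 → c * Real.log (1 / (s - 1)) ≤ A := by
    intro s hs1 hs2
    set Lg : ℝ := Real.log (1 / (s - 1)) with hLg
    have hs0 : (0 : ℝ) ≤ s := by linarith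
    -- a finite set of degree-one primes carrying almost all of the sum
    have hsumm : Summable fun v : ↥(degOne K) ↦ (absNorm v.1.asIdeal : ℝ) ^ (-s) :=
      (summable_prime_rpow K hs1).subtype _
    obtain ⟨F, hF⟩ : ∃ F : Finset ↥(degOne K),
        ∑' v : ↥(degOne K), (absNorm v.1.asIdeal : ℝ) ^ (-s) - 1 <
          ∑ v ∈ F, (absNorm v.1.asIdeal : ℝ) ^ (-s) := by
      have h1 := hsumm.hasSum
      have h2 : ∀ᶠ F : Finset ↥(degOne K) in atTop,
          ∑' v : ↥(degOne K), (absNorm v.1.asIdeal : ℝ) ^ (-s) - 1 <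
            ∑ v ∈ F, (absNorm v.1.asIdeal : ℝ) ^ (-s) :=
        h1.eventually (lt_mem_nhds (by linarith))
      exact h2.exists
    set T0 : Finset (HeightOneSpectrum (𝓞 K)) := F.map (Function.Embedding.subtype _) with hT0
    have hT0mem : ∀ v ∈ T0, v ∈ degOne K := by
      intro v hv
      obtain ⟨w, -, rfl⟩ := Finset.mem_map.mp hv
      exact w.2
    have hT0sum : ∑ v ∈ T0, (absNorm v.asIdeal : ℝ) ^ (-s) =
        ∑ v ∈ F, (absNorm v.1.asIdeal : ℝ) ^ (-s) := by
      rw [hT0, Finset.sum_map]; rfl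
    have hlow : Lg - CK - 1 < ∑ v ∈ T0, (absNorm v.asIdeal : ℝ) ^ (-s) := by
      have h1 := abs_le.mp (hCK s hs1 hs2)
      rw [hT0sum]
      linarith [h1.1]
    -- split `T0`
    have hnn : ∀ v : HeightOneSpectrum (𝓞 K), 0 ≤ (absNorm v.asIdeal : ℝ) ^ (-s) :=
      fun v ↦ by positivity
    have hsplit : ∑ v ∈ T0, (absNorm v.asIdeal : ℝ) ^ (-s) ≤
        ∑ v ∈ T0.filter (· ∈ R), (absNorm v.asIdeal : ℝ) ^ (-s) +
          ∑ i, ∑ v ∈ T0.filter (· ∈ bad i), (absNorm v.asIdeal : ℝ) ^ (-s) := by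
      have e1 : ∑ v ∈ T0.filter (· ∈ R), (absNorm v.asIdeal : ℝ) ^ (-s) =
          ∑ v ∈ T0, if v ∈ R then (absNorm v.asIdeal : ℝ) ^ (-s) else 0 :=
        Finset.sum_filter _ _
      have e2 : ∑ i, ∑ v ∈ T0.filter (· ∈ bad i), (absNorm v.asIdeal : ℝ) ^ (-s) =
          ∑ v ∈ T0, ∑ i, if v ∈ bad i then (absNorm v.asIdeal : ℝ) ^ (-s) else 0 := by
        rw [Finset.sum_comm]
        exact Finset.sum_congr rfl fun i _ ↦ Finset.sum_filter _ _
      rw [e1, e2, ← Finset.sum_add_distrib]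
      refine Finset.sum_le_sum fun v hv ↦ ?_
      by_cases hvR : v ∈ R
      · rw [if_pos hvR]
        have : 0 ≤ ∑ i, if v ∈ bad i then (absNorm v.asIdeal : ℝ) ^ (-s) else 0 :=
          Finset.sum_nonneg fun i _ ↦ by split_ifs <;> [exact hnn v; exact le_rfl]
        linarith
      · rw [if_neg hvR, zero_add]
        have hv1 : v ∈ degOne K := hT0mem v hv
        have hv2 : v ∈ ⋃ i, bad i := by
          by_contra h
          exact hvR (by rw [hR, Set.Finite.mem_toFinset]; exact ⟨hv1, h⟩)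
        obtain ⟨i, hi⟩ := Set.mem_iUnion.mp hv2
        calc (absNorm v.asIdeal : ℝ) ^ (-s)
            = if v ∈ bad i then (absNorm v.asIdeal : ℝ) ^ (-s) else 0 := by rw [if_pos hi]
          _ ≤ ∑ i, if v ∈ bad i then (absNorm v.asIdeal : ℝ) ^ (-s) else 0 :=
              Finset.single_le_sum (f := fun i ↦ if v ∈ bad i then
                (absNorm v.asIdeal : ℝ) ^ (-s) else 0)
                (fun i _ ↦ by split_ifs <;> [exact hnn v; exact le_rfl]) (Finset.mem_univ i)
    have hRpart : ∑ v ∈ T0.filter (· ∈ R), (absNorm v.asIdeal : ℝ) ^ (-s) ≤ R.card := by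
      calc ∑ v ∈ T0.filter (· ∈ R), (absNorm v.asIdeal : ℝ) ^ (-s)
          ≤ ∑ _v ∈ T0.filter (· ∈ R), (1 : ℝ) :=
            Finset.sum_le_sum fun v _ ↦ rpow_absNorm_le_one K hs0 v
        _ = ((T0.filter (· ∈ R)).card : ℝ) := by simp
        _ ≤ R.card := by
            have : (T0.filter (· ∈ R)).card ≤ R.card :=
              Finset.card_le_card fun v hv ↦ (Finset.mem_filter.mp hv).2
            exact_mod_cast this
    have hbadpart : ∀ i, ∑ v ∈ T0.filter (· ∈ bad i), (absNorm v.asIdeal : ℝ) ^ (-s) ≤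
        (1 : ℝ) / (Fintype.card (T i)) * (Lg + CM i) := by
      intro i
      set Ti := T0.filter (· ∈ bad i) with hTi
      have hcard : (0 : ℝ) < (Fintype.card (T i) : ℝ) := by
        exact_mod_cast Fintype.card_pos
      have hinj : Set.InjOn (fun p : HeightOneSpectrum (𝓞 K) × T i ↦ J i p.1 p.2)
          (↑(Ti ×ˢ (Finset.univ : Finset (T i))) : Set (HeightOneSpectrum (𝓞 K) × T i)) := by
        rintro ⟨v, t⟩ hp ⟨v', t'⟩ hp' h
        have hv : v ∈ bad i := (Finset.mem_filter.mp (Finset.mem_product.mp hp).1).2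
        have hv' : v' ∈ bad i := (Finset.mem_filter.mp (Finset.mem_product.mp hp').1).2
        obtain ⟨h1, h2⟩ := hJinj i v hv v' hv' t t' h
        rw [h1, h2]
      have h1 : (Fintype.card (T i) : ℝ) * ∑ v ∈ Ti, (absNorm v.asIdeal : ℝ) ^ (-s) =
          ∑ w ∈ (Ti ×ˢ (Finset.univ : Finset (T i))).image
            (fun p : HeightOneSpectrum (𝓞 K) × T i ↦ J i p.1 p.2),
            (absNorm w.asIdeal : ℝ) ^ (-s) := by
        rw [Finset.sum_image hinj, Finset.sum_product, Finset.mul_sum]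
        refine Finset.sum_congr rfl fun v hv ↦ ?_
        have hvb : v ∈ bad i := (Finset.mem_filter.mp hv).2
        simp_rw [hJnorm i v hvb]
        simp [Finset.card_univ]
      have h2 := hCM i s hs1 hs2 ((Ti ×ˢ (Finset.univ : Finset (T i))).image
            (fun p : HeightOneSpectrum (𝓞 K) × T i ↦ J i p.1 p.2))
      rw [← h1] at h2
      rw [one_div, inv_mul_eq_div, le_div_iff₀ hcard]
      linarith
    have htot : ∑ i, ∑ v ∈ T0.filter (· ∈ bad i), (absNorm v.asIdeal : ℝ) ^ (-s) ≤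
        ∑ i, (1 : ℝ) / (Fintype.card (T i)) * (Lg + CM i) :=
      Finset.sum_le_sum fun i _ ↦ hbadpart i
    have hexp : ∑ i, (1 : ℝ) / (Fintype.card (T i)) * (Lg + CM i) =
        (∑ i, (1 : ℝ) / (Fintype.card (T i))) * Lg +
          ∑ i, (1 : ℝ) / (Fintype.card (T i)) * CM i := by
      rw [Finset.sum_mul, ← Finset.sum_add_distrib]
      exact Finset.sum_congr rfl fun i _ ↦ by ring
    rw [hc, hA]
    have : Lg - CK - 1 < (R.card : ℝ) + ((∑ i, (1 : ℝ) / (Fintype.card (T i))) * Lg +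
          ∑ i, (1 : ℝ) / (Fintype.card (T i)) * CM i) := by
      calc Lg - CK - 1 < ∑ v ∈ T0, (absNorm v.asIdeal : ℝ) ^ (-s) := hlow
        _ ≤ _ := hsplit
        _ ≤ _ := by rw [← hexp]; exact add_le_add hRpart htot
    nlinarith [this]
  -- choose `s` with `log (1/(s-1)) = t` large
  set t : ℝ := (|A| + 1) / c with ht
  have htpos : 0 < t := by rw [ht]; positivity
  have hs1 : 1 < 1 + Real.exp (-t) := by linarith [Real.exp_pos (-t)]
  have hs2 : 1 + Real.exp (-t) ≤ 2 := by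
    have : Real.exp (-t) ≤ 1 := Real.exp_le_one_iff.mpr (by linarith)
    linarith
  have hlog : Real.log (1 / (1 + Real.exp (-t) - 1)) = t := by
    rw [add_sub_cancel_left, one_div, ← Real.exp_neg, neg_neg, Real.log_exp]
  have h := key _ hs1 hs2
  rw [hlog, ht, mul_div_cancel₀ _ hcpos.ne'] at h
  linarith [le_abs_self A]

end Fermat.Agent.S41.H70
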