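import Fermat.Agent.S41.H70.FrobVal

/-!
# S41 / U7-FD (helper70): Frobenius density over a Galois extension `Ω / ℚ`, consumer form

`Ω` is any Galois extension of `ℚ` (for instance `AlgebraicClosure ℚ`), `S ⊆ Ω` a finite set
stable under `Gal(Ω/ℚ)` (for instance the coordinates of the `p`-torsion points of an elliptic
curve), `N` the pointwise stabiliser of `S`.

* `exists_prime_forall_isFrobeniusAt`: for subgroups `N ≤ 𝓗' i ≤ 𝓗` of `Gal(Ω/ℚ)`, the `𝓗' i`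
  normalised by `𝓗`, with `∑ 1 / [𝓗 : 𝓗' i] < 1`, there are arbitrarily large primes `l` such
  that every Frobenius element (Prelude `ValuationSubring.IsFrobeniusAt`) at every valuation
  subring of `Ω` above `l` is conjugate to an element of `𝓗` outside all `𝓗' i`.
* `exists_prime_forall_isFrobeniusAt_of_lt`: the case of ONE proper subgroup `𝓗₁ < 𝓗`.
-/

set_option autoImplicit false
set_option linter.style.haveILetI false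

open NumberField Ideal IsDedekindDomain

namespace Fermat.Agent.S41.H70

section Concrete

variable {Ω : Type*} [Field Ω] [Algebra ℚ Ω] [IsGalois ℚ Ω]

theorem exists_prime_forall_isFrobeniusAt (S : Set Ω) (hSfin : S.Finite)
    (hSstable : ∀ σ : Ω ≃ₐ[ℚ] Ω, ∀ x ∈ S, σ x ∈ S)
    (𝓗 : Subgroup (Ω ≃ₐ[ℚ] Ω)) (h𝓗 : ∀ σ : Ω ≃ₐ[ℚ] Ω, (∀ x ∈ S, σ x = x) → σ ∈ 𝓗)
    {ι : Type*} [Fintype ι] (𝓗' : ι → Subgroup (Ω ≃ₐ[ℚ] Ω))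
    (h𝓗' : ∀ i, ∀ σ : Ω ≃ₐ[ℚ] Ω, (∀ x ∈ S, σ x = x) → σ ∈ 𝓗' i)
    (hle : ∀ i, 𝓗' i ≤ 𝓗)
    (hnormal : ∀ i, ∀ τ ∈ 𝓗, ∀ σ ∈ 𝓗' i, τ * σ * τ⁻¹ ∈ 𝓗' i)
    (hsum : ∑ i, (1 : ℝ) / ((𝓗' i).relIndex 𝓗 : ℝ) < 1) (B : ℕ) :
    ∃ l : ℕ, l.Prime ∧ B < l ∧ ∀ A : ValuationSubring Ω, A.LiesOverPrime l →
      ∀ σ : Ω ≃ₐ[ℚ] Ω, A.IsFrobeniusAt σ l →
        ∃ τ : Ω ≃ₐ[ℚ] Ω, τ * σ * τ⁻¹ ∈ 𝓗 ∧ ∀ i, τ * σ * τ⁻¹ ∉ 𝓗' i := by
  haveI : Finite S := hSfin.to_subtype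
  have hfd := IntermediateField.finiteDimensional_adjoin (K := ℚ) (S := S)
    (fun x _ => Algebra.IsIntegral.isIntegral x)
  have hnormal₁ := (IntermediateField.normal_iff_forall_map_le' (F := ℚ) (L := Ω)
    (K := IntermediateField.adjoin ℚ S)).mpr (fun σ => by
      rw [IntermediateField.adjoin_map]
      refine IntermediateField.adjoin.mono _ _ _ ?_
      rintro _ ⟨x, hx, rfl⟩
      exact hSstable σ x hx)
  haveI : NumberField (IntermediateField.adjoin ℚ S) := by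
    refine @NumberField.mk _ _ inferInstance ?_
    convert hfd
    all_goals first
      | rfl
      | exact (subsingleton_rat_module (↥(IntermediateField.adjoin ℚ S))).elim _ _
  haveI : Normal ℚ (IntermediateField.adjoin ℚ S) := by
    convert hnormal₁
    exact Rat.algebra_rat_subsingleton.elim _ _
  haveI : IsGalois ℚ (IntermediateField.adjoin ℚ S) := ⟨⟩
  have hrsurj := AlgEquiv.restrictNormalHom_surjective (F := ℚ)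
    (K₁ := ↥(IntermediateField.adjoin ℚ S)) Ω
  have hr : ∀ (σ : Ω ≃ₐ[ℚ] Ω) (x : ↥(IntermediateField.adjoin ℚ S)),
      algebraMap (↥(IntermediateField.adjoin ℚ S)) Ω
        (AlgEquiv.restrictNormalHom (F := ℚ) (K₁ := Ω) ↥(IntermediateField.adjoin ℚ S) σ x) =
        σ (algebraMap (↥(IntermediateField.adjoin ℚ S)) Ω x) :=
    fun σ x => AlgEquiv.restrictNormal_commutes σ _ x
  have hkerS : ∀ σ : Ω ≃ₐ[ℚ] Ω,
      σ ∈ (AlgEquiv.restrictNormalHom (F := ℚ) (K₁ := Ω) ↥(IntermediateField.adjoin ℚ S)).ker →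
        ∀ x ∈ S, σ x = x := by
    intro σ hσ x hx
    rw [MonoidHom.mem_ker] at hσ
    have h1 := hr σ ⟨x, IntermediateField.subset_adjoin ℚ S hx⟩
    rw [hσ] at h1
    exact h1.symm
  exact exists_prime_forall_isFrobeniusAt_aux
    (algebraMap (↥(IntermediateField.adjoin ℚ S)) Ω)
    (AlgEquiv.restrictNormalHom (F := ℚ) (K₁ := Ω) ↥(IntermediateField.adjoin ℚ S)) hr hrsurj
    𝓗 (fun σ hσ => h𝓗 σ (hkerS σ hσ)) 𝓗' (fun i σ hσ => h𝓗' i σ (hkerS σ hσ)) hle hnormal hsum B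

/-- The case of one proper subgroup. -/
theorem exists_prime_forall_isFrobeniusAt_of_lt (S : Set Ω) (hSfin : S.Finite)
    (hSstable : ∀ σ : Ω ≃ₐ[ℚ] Ω, ∀ x ∈ S, σ x ∈ S)
    (𝓗 𝓗₁ : Subgroup (Ω ≃ₐ[ℚ] Ω))
    (h𝓗₁ : ∀ σ : Ω ≃ₐ[ℚ] Ω, (∀ x ∈ S, σ x = x) → σ ∈ 𝓗₁)
    (hlt : 𝓗₁ < 𝓗)
    (hnormal : ∀ τ ∈ 𝓗, ∀ σ ∈ 𝓗₁, τ * σ * τ⁻¹ ∈ 𝓗₁) (B : ℕ) :
    ∃ l : ℕ, l.Prime ∧ B < l ∧ ∀ A : ValuationSubring Ω, A.LiesOverPrime l →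
      ∀ σ : Ω ≃ₐ[ℚ] Ω, A.IsFrobeniusAt σ l →
        ∃ τ : Ω ≃ₐ[ℚ] Ω, τ * σ * τ⁻¹ ∈ 𝓗 ∧ τ * σ * τ⁻¹ ∉ 𝓗₁ := by
  have h1 : 𝓗₁.relIndex 𝓗 ≠ 1 := fun h => (not_le_of_gt hlt) (Subgroup.relIndex_eq_one.mp h)
  have hsum : ∑ _i : Unit, (1 : ℝ) / ((𝓗₁.relIndex 𝓗 : ℕ) : ℝ) < 1 := by
    simp only [Finset.univ_unique, Finset.sum_singleton]
    rcases Nat.eq_zero_or_pos (𝓗₁.relIndex 𝓗) with h0 | hpos
    · rw [h0]; simp
    · have h2 : 2 ≤ 𝓗₁.relIndex 𝓗 := by omega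
      rw [div_lt_one (by exact_mod_cast hpos)]
      exact_mod_cast h2
  obtain ⟨l, hl, hBl, h⟩ := exists_prime_forall_isFrobeniusAt S hSfin hSstable 𝓗
    (fun σ hσ => hlt.le (h𝓗₁ σ hσ)) (fun _ : Unit => 𝓗₁) (fun _ => h𝓗₁) (fun _ => hlt.le)
    (fun _ => hnormal) hsum B
  exact ⟨l, hl, hBl, fun A hA σ hσ =>
    let ⟨τ, h1, h2⟩ := h A hA σ hσ
    ⟨τ, h1, h2 ()⟩⟩

end Concrete

end Fermat.Agent.S41.H70
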